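import Fermat.Agent.JacTorsion.Orbit
import Fermat.Agent.JacTorsion.Kummer

/-!
# Descent of torsion classes from `ℂ` to `ℚ̄`

If the function field over `ℂ` has only finitely many classes killed by `m`, all of them come
from `ℚ̄`.
-/

set_option autoImplicit false

noncomputable section

open ModularCurve AlgebraicCurve Fermat.Agent.FF IntermediateField

namespace Fermat.Agent.JacTorsion

section General

variable {K F : Type*} [Field K] [Field F] [Algebra K F]

theorem residueConst_of_isFunctionField [IsAlgClosed K] [IsFunctionField K F] (P : Place K F) :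
    ResidueConst P :=
  haveI := finite_residueField P
  residueConst_of_finite P

/-- Any two nonzero elements of `L(D)` are proportional. -/
def LineOnly (D : Divisor K F) : Prop :=
  ∀ f g : F, f ≠ 0 → g ≠ 0 → (∀ P, 0 ≤ D P + P.ord f) → (∀ P, 0 ≤ D P + P.ord g) →
    ∃ c : K, g = algebraMap K F c * f

variable [IsFunctionField K F]

theorem poles_apply' (t : F) (P : Place K F) : FF.poles K t P = max (- P.ord t) 0 := by
  simp [FF.poles, max_comm]

variable [IsAlgClosed K]

omit [IsAlgClosed K] in
/-- Every divisor becomes linearly equivalent to an effective one after adding poles of `t`. -/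
theorem exists_effective {t : F} (ht : Transcendental K t) (D : Divisor K F) :
    ∃ (B : ℕ) (g : F), g ≠ 0 ∧ ∀ P, 0 ≤ D P + B * FF.poles K t P + P.ord g := by
  have : FiniteDimensional K⟮t⟯ F := FF.finiteDimensional_adjoin ht
  obtain ⟨B, hB⟩ : ∃ B : ℕ, (genusFF K F : ℤ) - Divisor.degree D ≤ B :=
    ⟨_, Int.self_le_toNat _⟩
  have hd : (1 : ℤ) ≤ Divisor.degree (FF.poles K t) := by
    rw [FF.degree_poles ht]; exact_mod_cast Module.finrank_pos
  obtain ⟨g, hg, hg'⟩ := exists_ne_zero_of_ell_pos (D := D + B • FF.poles K t) (by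
    have := riemann_inequality (D + B • FF.poles K t)
    have := one_le_ell_zero (K := K) (F := F)
    rw [map_add, map_nsmul, nsmul_eq_mul] at *
    nlinarith)
  exact ⟨B, g, hg, fun P => by simpa [nsmul_eq_mul, add_assoc] using Finsupp.le_def.mp hg' P⟩

omit [IsFunctionField K F] [IsAlgClosed K] in
theorem single_le_of_pos {B : Divisor K F} (hB : 0 ≤ B) {Q : Place K F} (hQ : 1 ≤ B Q) :
    Finsupp.single Q 1 ≤ B := Finsupp.le_def.mpr fun P => by
  classical
  have := Finsupp.le_def.mp hB P
  rw [Finsupp.single_apply]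
  split_ifs with h
  · exact h ▸ hQ
  · simpa using this

/-- One can lower an effective shift of a degree zero divisor until the space of sections is a
line. -/
theorem exists_lineOnly {D : Divisor K F} (hD : Divisor.degree D = 0) :
    ∀ (n : ℕ) (B : Divisor K F), (∀ P, 0 ≤ B P) → Divisor.degree B = (n : ℤ) →
      (∃ g : F, g ≠ 0 ∧ ∀ P, 0 ≤ D P + B P + P.ord g) →
      ∃ (B' : Divisor K F) (g : F), (∀ P, 0 ≤ B' P) ∧ (∀ P, B' P ≤ B P) ∧ g ≠ 0 ∧
        (∀ P, 0 ≤ D P + B' P + P.ord g) ∧ LineOnly (D + B') := by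
  classical
  intro n
  induction n using Nat.strong_induction_on with
  | _ n ih =>
  intro B hB hdeg hg
  by_cases hU : LineOnly (D + B)
  · obtain ⟨g, hg0, hg⟩ := hg
    exact ⟨B, g, hB, fun P => le_rfl, hg0, hg, hU⟩
  simp only [LineOnly, Finsupp.add_apply] at hU
  push Not at hU
  obtain ⟨f, g, hf0, hg0, hf, hg', hfg⟩ := hU
  by_cases hB0 : B = 0
  · have heq : ∀ h : F, (∀ P, 0 ≤ D P + B P + P.ord h) → ∀ P, P.ord h = - D P := fun h hh P => by
      have e := eq_of_le_of_degree_le (D := 0) (E := D + FF.div K h) (Finsupp.le_def.mpr fun Q => by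
          simpa [hB0, FF.div_apply] using hh Q) (by rw [map_add, hD, degree_div]; simp)
      have := DFunLike.congr_fun e P
      simp only [Finsupp.coe_zero, Pi.zero_apply, Finsupp.add_apply, FF.div_apply] at this
      omega
    obtain ⟨c, hc⟩ : ∃ c : K, g / f = algebraMap K F c := eq_algebraMap_of_ord_nonneg fun P => by
      rw [FF.ord_div P hg0 hf0, heq f hf P, heq g hg' P]; simp
    exact absurd (by rw [← hc, div_mul_cancel₀ _ hf0]) (hfg c)
  obtain ⟨Q, hQ⟩ := Finsupp.ne_iff.mp hB0
  have hQ1 : 1 ≤ B Q := by have := hB Q; simp only [Finsupp.zero_apply] at hQ; omega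
  have hle1 := single_le_of_pos (Finsupp.le_def.mpr hB) hQ1
  -- find a section vanishing to higher order at `Q`
  obtain ⟨h, hh0, hh, hhQ⟩ : ∃ h : F, h ≠ 0 ∧ (∀ P, 0 ≤ D P + B P + P.ord h) ∧
      0 < D Q + B Q + Q.ord h := by
    by_cases h1 : 0 < D Q + B Q + Q.ord f
    · exact ⟨f, hf0, hf, h1⟩
    by_cases h2 : 0 < D Q + B Q + Q.ord g
    · exact ⟨g, hg0, hg', h2⟩
    have hord : Q.ord (g / f) = 0 := by
      rw [FF.ord_div Q hg0 hf0]; have := hf Q; have := hg' Q; omega
    obtain ⟨c, hc⟩ := residueConst_of_isFunctionField Q _ (mem_of_ord_nonneg Q hord.ge)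
    have hne : g - algebraMap K F c * f ≠ 0 := sub_ne_zero.mpr (hfg c)
    refine ⟨g - algebraMap K F c * f, hne, fun P => ?_, ?_⟩
    · rcases eq_or_ne c 0 with rfl | hc0
      · simpa using hg' P
      have hcF : algebraMap K F c ≠ 0 := by simpa using hc0
      have := le_ord_add (n := - D P - B P) P (f := g) (g := -(algebraMap K F c * f))
        (by rwa [← sub_eq_add_neg]) (by have := hg' P; omega)
        (by rw [FF.ord_neg, P.ord_mul hcF hf0, FF.ord_algebraMap]; have := hf P; omega)
      rw [← sub_eq_add_neg] at this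
      omega
    · have hne' : g / f - algebraMap K F c ≠ 0 := by
        rw [sub_ne_zero]; exact fun h' => hfg c (by rw [← h', div_mul_cancel₀ _ hf0])
      have := ((valuation_lt_one_iff Q).mp hc).resolve_left hne'
      rw [show g - algebraMap K F c * f = (g / f - algebraMap K F c) * f by
        rw [sub_mul, div_mul_cancel₀ _ hf0], Q.ord_mul hne' hf0]
      have := hf Q
      omega
  have hdQ : 1 ≤ (n : ℤ) := by
    simpa [Divisor.degree_single, deg_eq_one, hdeg] using degree_mono hle1
  obtain ⟨B', g', hB', hle, hg'0, hg'', hL⟩ := ih (n - 1) (by omega) (B - Finsupp.single Q 1)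
    (Finsupp.le_def.mp (sub_nonneg.mpr hle1))
    (by rw [map_sub, hdeg, Divisor.degree_single, deg_eq_one Q]; omega)
    ⟨h, hh0, fun P => by
      rw [Finsupp.sub_apply, Finsupp.single_apply]
      split_ifs with e
      · subst e; omega
      · have := hh P; omega⟩
  exact ⟨B', g', hB', fun P => (hle P).trans (Finsupp.le_def.mp (sub_le_self B
    (Finsupp.le_def.mpr fun _ => by rw [Finsupp.single_apply]; split_ifs <;> simp)) P),
    hg'0, hg'', hL⟩
end General

end Fermat.Agent.JacTorsion
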