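import Fermat.Prelude.Def_ModularCurve_LaurentCoeff
import Fermat.Prelude.Def_AlgebraicCurve_DivisorClassGroup
import Fermat.Agent.JacTorsion.PlaceExt
import Mathlib.LinearAlgebra.Dual.Lemmas

/-!
# Extension of the field of coefficients for fields of Laurent series

For `F ⊆ K((q))` and `ι : K →+* L` we study `cExt ι F = L · F ⊆ L((q))`: descent of series with
coefficients in `K`, and `cExt` as a `ScalarExt` of `F` (places are treated in
`JacTorsion.PlaceExt`).
-/

set_option autoImplicit false

noncomputable section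

open ModularCurve AlgebraicCurve IntermediateField

namespace Fermat.Agent.JacTorsion

variable {K L : Type*} [Field K] [Field L] (ι : K →+* L)
variable (F : IntermediateField K (LaurentSeries K))

/-- The field generated over `L` by the series of `F`. -/
def cExt : IntermediateField L (LaurentSeries L) :=
  IntermediateField.adjoin L (⇑(coeffMap ι) '' (F : Set (LaurentSeries K)))

theorem coeffMap_mem_cExt {x : LaurentSeries K} (hx : x ∈ F) : coeffMap ι x ∈ cExt ι F :=
  IntermediateField.subset_adjoin L _ ⟨x, hx, rfl⟩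

/-- The inclusion of `F` into `cExt ι F`. -/
def cEmb : F →+* cExt ι F :=
  ((coeffMap ι).comp F.val.toRingHom).codRestrict (cExt ι F).toSubfield
    fun x => coeffMap_mem_cExt ι F x.2

theorem cEmb_algebraMap (a : K) :
    cEmb ι F (algebraMap K F a) = algebraMap L (cExt ι F) (ι a) := by
  refine Subtype.ext ?_
  show coeffMap ι (algebraMap K (LaurentSeries K) a) = algebraMap L (LaurentSeries L) (ι a)
  rw [algebraMap_laurentSeries_eq_single, algebraMap_laurentSeries_eq_single, coeffMap_single]

/-- Shortcut: the search through `LaurentSeries` is slow. -/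
local instance instAlgebraCExt : Algebra L (cExt ι F) := inferInstance

/-- Shortcut: the search through `LaurentSeries` is slow. -/
local instance instModuleCExt : Module L (cExt ι F) := inferInstance

/-- The `L`-span of `F` inside `cExt ι F`. -/
def cSpan : Submodule L (cExt ι F) := Submodule.span L (Set.range (cEmb ι F))

variable {ι F}

theorem cEmb_mem_cSpan (x : F) : cEmb ι F x ∈ cSpan ι F :=
  Submodule.subset_span ⟨x, rfl⟩

theorem mul_mem_cSpan {x y : cExt ι F} (hx : x ∈ cSpan ι F) (hy : y ∈ cSpan ι F) :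
    x * y ∈ cSpan ι F := by
  induction hx using Submodule.span_induction with
  | mem x hx =>
    induction hy using Submodule.span_induction with
    | mem y hy =>
      obtain ⟨a, rfl⟩ := hx; obtain ⟨b, rfl⟩ := hy
      rw [← map_mul]; exact cEmb_mem_cSpan _
    | zero => simp
    | add a b _ _ ha hb => rw [mul_add]; exact add_mem ha hb
    | smul c a _ ha => rw [mul_smul_comm]; exact Submodule.smul_mem _ c ha
  | zero => simp
  | add a b _ _ ha hb => rw [add_mul]; exact add_mem ha hb
  | smul c a _ ha => rw [smul_mul_assoc]; exact Submodule.smul_mem _ c ha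

variable (ι F) in
theorem exists_eq_div_cSpan (x : cExt ι F) :
    ∃ a ∈ cSpan ι F, ∃ b ∈ cSpan ι F, b ≠ 0 ∧ x = a / b := by
  obtain ⟨r, hr, s, hs, hx⟩ := IntermediateField.mem_adjoin_iff_div.mp x.2
  have key : ∀ r ∈ Algebra.adjoin L (⇑(coeffMap ι) '' (F : Set (LaurentSeries K))),
      ∃ a ∈ cSpan ι F, (a : LaurentSeries L) = r := by
    intro r hr
    induction hr using Algebra.adjoin_induction with
    | mem y hy =>
      obtain ⟨z, hz, rfl⟩ := hy
      exact ⟨cEmb ι F ⟨z, hz⟩, cEmb_mem_cSpan _, rfl⟩
    | algebraMap c =>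
      refine ⟨algebraMap L (cExt ι F) c, ?_, rfl⟩
      rw [Algebra.algebraMap_eq_smul_one, ← map_one (cEmb ι F)]
      exact Submodule.smul_mem _ c (cEmb_mem_cSpan _)
    | add y z _ _ hy hz =>
      obtain ⟨a, ha, rfl⟩ := hy; obtain ⟨b, hb, rfl⟩ := hz
      exact ⟨a + b, add_mem ha hb, rfl⟩
    | mul y z _ _ hy hz =>
      obtain ⟨a, ha, rfl⟩ := hy; obtain ⟨b, hb, rfl⟩ := hz
      exact ⟨a * b, mul_mem_cSpan ha hb, rfl⟩
  obtain ⟨a, ha, rfl⟩ := key r hr
  obtain ⟨b, hb, rfl⟩ := key s hs
  rcases eq_or_ne b 0 with rfl | hb0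
  · refine ⟨0, zero_mem _, 1, ?_, one_ne_zero, ?_⟩
    · rw [← map_one (cEmb ι F)]; exact cEmb_mem_cSpan _
    · refine Subtype.ext ?_
      rw [hx]; simp
  · exact ⟨a, ha, b, hb, hb0, Subtype.ext (by rw [hx]; simp)⟩

/-- A series with coefficients in `K` which lies in `L · F` lies in `F`. -/
theorem mem_of_coeffMap_mem_cExt {y : LaurentSeries K} (hy : coeffMap ι y ∈ cExt ι F) :
    y ∈ F := by
  let _ : Algebra K L := ι.toAlgebra
  obtain ⟨a, ha, b, hb, hb0, hab⟩ := exists_eq_div_cSpan ι F ⟨_, hy⟩
  have hbs : (b : LaurentSeries L) ≠ 0 := by simpa using hb0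
  obtain ⟨k, hk⟩ : ∃ k, (b : LaurentSeries L).coeff k ≠ 0 := by
    by_contra h; push Not at h; exact hbs (HahnSeries.ext (funext h))
  obtain ⟨φ, hφ⟩ := Module.Projective.exists_dual_eq_one K hk
  let Φ : LaurentSeries L → LaurentSeries K := fun x => x.map φ
  have hadd : ∀ (s : Finset F) (g : F → LaurentSeries L),
      Φ (∑ i ∈ s, g i) = ∑ i ∈ s, Φ (g i) := fun s g =>
    map_sum (⟨⟨Φ, by ext n; simp [Φ]⟩, fun u v => by ext n; simp [Φ]⟩ :
      LaurentSeries L →+ LaurentSeries K) g s
  have h1 : ∀ (d : L) (w : LaurentSeries K),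
      Φ (algebraMap L (LaurentSeries L) d * coeffMap ι w)
        = algebraMap K (LaurentSeries K) (φ d) * w := by
    intro d w
    ext n
    show φ ((algebraMap L (LaurentSeries L) d * coeffMap ι w).coeff n) = _
    rw [algebraMap_laurentSeries_eq_single, algebraMap_laurentSeries_eq_single,
      HahnSeries.coeff_single_zero_mul, HahnSeries.coeff_single_zero_mul, coeffMap_coeff]
    have : d * ι (w.coeff n) = w.coeff n • d := by
      rw [Algebra.smul_def, mul_comm]; rfl
    rw [this, map_smul, smul_eq_mul, mul_comm]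
  have key : ∀ x ∈ cSpan ι F, Φ x ∈ F ∧ Φ (coeffMap ι y * x) = y * Φ x := by
    intro x hxm
    obtain ⟨l, hl⟩ := Finsupp.mem_span_range_iff_exists_finsupp.mp hxm
    have hx : (x : LaurentSeries L)
        = ∑ i ∈ l.support, algebraMap L (LaurentSeries L) (l i) * coeffMap ι (i : LaurentSeries K) := by
      rw [← hl, Finsupp.sum]
      simp only [Algebra.smul_def]
      exact map_sum (cExt ι F).val _ _
    rw [hx, hadd, Finset.mul_sum, hadd]
    simp only [mul_left_comm (coeffMap ι y), ← map_mul (coeffMap ι), h1, Finset.mul_sum,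
      mul_left_comm y]
    exact ⟨sum_mem fun i _ => mul_mem (F.algebraMap_mem _) i.2, trivial⟩
  have hΦb : Φ b ≠ 0 := fun h => by
    have : φ ((b : LaurentSeries L).coeff k) = 0 := by
      have := congrArg (fun u => HahnSeries.coeff u k) h
      simpa [Φ] using this
    rw [hφ] at this; exact one_ne_zero this
  have h2 : coeffMap ι y * (b : LaurentSeries L) = a := by
    have h3 := congrArg Subtype.val hab
    simp only [IntermediateField.coe_div] at h3
    rw [h3, div_mul_cancel₀ _ hbs]
  have h3 : y * Φ b = Φ a := by rw [← (key b hb).2, h2]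
  rw [(eq_div_iff hΦb).mpr h3]
  exact div_mem (key a ha).1 (key b hb).1

variable (ι F) in
/-- The extension of constants `F ⊆ L · F` as a `ScalarExt`. -/
def cScalarExt : ScalarExt K L F (cExt ι F) where
  base := ι
  emb := cEmb ι F
  emb_algebraMap := cEmb_algebraMap ι F
  exists_div := exists_eq_div_cSpan ι F
  disjoint n c y h := by
    let _ : Algebra K L := ι.toAlgebra
    obtain ⟨φ, hφ⟩ := Module.Projective.exists_dual_eq_one K (one_ne_zero : (1 : L) ≠ 0)
    refine ⟨fun i => φ (c i), Subtype.ext (HahnSeries.ext (funext fun k => ?_))⟩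
    have hs : ((∑ i, algebraMap L (cExt ι F) (c i) * cEmb ι F (y i) : cExt ι F) :
        LaurentSeries L) = ∑ i, algebraMap L (LaurentSeries L) (c i) *
          coeffMap ι (y i : LaurentSeries K) := map_sum (cExt ι F).val _ _
    have hs' : ((∑ i, algebraMap K F (φ (c i)) * y i : F) : LaurentSeries K) =
        ∑ i, algebraMap K (LaurentSeries K) (φ (c i)) * (y i : LaurentSeries K) :=
      map_sum F.val _ _
    have h' := congrArg (fun u : cExt ι F => φ ((u : LaurentSeries L).coeff k)) h
    simp only [hs, show ((1 : cExt ι F) : LaurentSeries L) = 1 from rfl, HahnSeries.coeff_sum,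
      map_sum] at h'
    have e1 : φ ((1 : LaurentSeries L).coeff k) = (1 : LaurentSeries K).coeff k := by
      rw [HahnSeries.coeff_one, HahnSeries.coeff_one]
      split <;> simp [hφ]
    rw [hs', show ((1 : F) : LaurentSeries K) = 1 from rfl, ← e1, ← h', HahnSeries.coeff_sum]
    refine Finset.sum_congr rfl fun i _ => ?_
    rw [algebraMap_laurentSeries_eq_single, algebraMap_laurentSeries_eq_single,
      HahnSeries.coeff_single_zero_mul, HahnSeries.coeff_single_zero_mul, coeffMap_coeff]
    have : c i * ι ((y i : LaurentSeries K).coeff k) = (y i : LaurentSeries K).coeff k • c i := by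
      rw [Algebra.smul_def, mul_comm]; rfl
    rw [this, map_smul, smul_eq_mul, mul_comm]

/-- Base change of a field of rational series, in two steps. -/
theorem cExt_laurentBaseChange [Algebra ℚ K] [Algebra ℚ L]
    (F₀ : IntermediateField ℚ (LaurentSeries ℚ)) :
    cExt ι (laurentBaseChange K F₀) = laurentBaseChange L F₀ := by
  have key : ∀ x, coeffMap ι (coeffEmb K x) = coeffEmb L x := fun x => by
    rw [coeffEmb, coeffEmb, coeffMap_coeffMap]
    exact coeffMap_congr (RingHom.ext fun q => by
      rw [RingHom.comp_apply, eq_ratCast, eq_ratCast, map_ratCast]) x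
  apply le_antisymm
  · rw [cExt, IntermediateField.adjoin_le_iff]
    rintro _ ⟨y, hy, rfl⟩
    induction hy using IntermediateField.adjoin_induction with
    | mem z hz =>
      obtain ⟨w, hw, rfl⟩ := hz
      rw [key]; exact coeffEmb_mem_laurentBaseChange L hw
    | algebraMap a =>
      rw [show coeffMap ι (algebraMap K (LaurentSeries K) a) = algebraMap L (LaurentSeries L) (ι a) by
        rw [algebraMap_laurentSeries_eq_single, algebraMap_laurentSeries_eq_single, coeffMap_single]]
      exact (laurentBaseChange L F₀).algebraMap_mem _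
    | add a b _ _ ha hb => rw [map_add]; exact add_mem ha hb
    | inv a _ ha => rw [map_inv₀]; exact inv_mem ha
    | mul a b _ _ ha hb => rw [map_mul]; exact mul_mem ha hb
  · rw [laurentBaseChange, IntermediateField.adjoin_le_iff]
    rintro _ ⟨w, hw, rfl⟩
    rw [← key]
    exact coeffMap_mem_cExt ι _ (coeffEmb_mem_laurentBaseChange K hw)

end Fermat.Agent.JacTorsion
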