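import Fermat.Agent.JacTorsion.CharInjective
import Fermat.Agent.Poincare.Multiplier
import Fermat.Agent.Igusa.SeriesOrder

/-!
# Every character occurs as a monodromy of an `m`-th root

Together with injectivity, `charHom` identifies the Kummer group of a uniformised field with the
homomorphisms killing elliptic and parabolic elements.
-/

set_option autoImplicit false
set_option linter.unusedSectionVars false

noncomputable section

open UpperHalfPlane hiding I
open AlgebraicCurve CongruenceSubgroup Filter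
open Fermat.Agent.ModFun
open scoped MatrixGroups Manifold ModularForm

namespace Fermat.Agent.JacTorsion

variable {m : ℕ} [NeZero m]

/-- `P / Δ ^ r` for a form `P` of weight `12 r`. -/
theorem quot_smul (P : ℍ → ℂ) (r : ℕ) (g : SL(2, ℤ)) (τ : ℍ) :
    P (g • τ) / ModularForm.discriminant (g • τ) ^ r
      = (P ∣[(12 * r : ℤ)] g) τ / ModularForm.discriminant τ ^ r := by
  have hd : denom g τ ≠ 0 := denom_ne_zero _ _
  rw [ModularForm.SL_slash_apply, discriminant_smul, mul_pow, ← zpow_natCast (denom g τ ^ (12 : ℤ)),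
    ← zpow_mul, zpow_neg]
  field_simp

/-- An element fixing a point of `ℍ` has trace of square at most four. -/
theorem trace_sq_le_of_fixed {g : SL(2, ℤ)} {τ : ℍ} (h : g • τ = τ) :
    (g : Matrix (Fin 2) (Fin 2) ℤ).trace ^ 2 ≤ 4 := by
  have h1 : ((g • τ : ℍ) : ℂ) = τ := by rw [h]
  rw [coe_SL_smul] at h1
  have hdet : g 0 0 * g 1 1 - g 0 1 * g 1 0 = 1 := by
    have := g.det_coe; rwa [Matrix.det_fin_two] at this
  rcases eq_or_ne (g 1 0) 0 with hc | hc
  · rw [hc, mul_zero, sub_zero] at hdet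
    rcases Int.eq_one_or_neg_one_of_mul_eq_one' hdet with ⟨ha, hd⟩ | ⟨ha, hd⟩ <;>
      simp [Matrix.trace_fin_two, ha, hd]
  · have hden : (g 1 0 : ℂ) * τ + g 1 1 ≠ 0 := fun h0 => by
      have := congrArg Complex.im h0
      simp [hc, τ.im_pos.ne'] at this
    rw [div_eq_iff hden] at h1
    have hre := congrArg Complex.re h1
    have him := congrArg Complex.im h1
    simp at hre him
    have hdetR : (g 0 0 : ℝ) * g 1 1 - g 0 1 * g 1 0 = 1 := by exact_mod_cast hdet
    set a : ℝ := (g 0 0 : ℝ); set b : ℝ := (g 0 1 : ℝ)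
    set c : ℝ := (g 1 0 : ℝ) with hcR; set d : ℝ := (g 1 1 : ℝ)
    have hy := τ.im_pos
    have h2 : a - d = 2 * c * τ.re := by
      apply mul_right_cancel₀ hy.ne'
      linear_combination him
    have h3 : (a + d) ^ 2 - 4 = -(2 * c * τ.im) ^ 2 := by
      linear_combination (a - d - 2 * c * τ.re) * h2 + 4 * hdetR + 4 * c * hre
    have h4 : ((g 0 0 + g 1 1 : ℤ) : ℝ) ^ 2 ≤ 4 := by
      push_cast
      nlinarith [sq_nonneg (c * τ.im)]
    rw [Matrix.trace_fin_two]
    exact_mod_cast h4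

end Fermat.Agent.JacTorsion

namespace Fermat.Agent.ModFun.Uniformisation

open Fermat.Agent.JacTorsion

variable {m : ℕ} [NeZero m]

variable {N : ℕ} [NeZero N] {Γ : Subgroup SL(2, ℤ)} [Fact (CongruenceSubgroup.Gamma N ≤ Γ)]
  [Γ.FiniteIndex] {F : Type} [Field F] [Algebra ℂ F] [FF.IsFunctionField ℂ F]
  (U : Uniformisation N Γ F)

include U in
/-- A meromorphic-at-cusps holomorphic function with a given multiplier. -/
theorem exists_semiinvariant (φ : Gamma0.ellParHoms Γ (ZMod m)) :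
    ∃ H : HolH, H ≠ 0 ∧ (∀ g : SL(2, ℤ), MeroAtInfty fun τ => (H : ℍ → ℂ) (g • τ)) ∧
      ∀ γ : Γ, actHol (γ : SL(2, ℤ)) H
        = algebraMap ℂ HolH (zetaPow m (φ.1 (Additive.ofMul γ))) * H := by
  let χ : Γ →* ℂˣ :=
    { toFun := fun γ => Units.mk0 _ (zetaPow_ne_zero (φ.1 (Additive.ofMul γ)))
      map_one' := Units.ext (by simp [zetaPow_zero])
      map_mul' := fun γ δ => Units.ext (by simp [zetaPow_add]) }
  have hfin : (Set.range χ).Finite := by
    refine (Set.finite_range fun a : ZMod m => Units.mk0 _ (zetaPow_ne_zero a)).subset ?_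
    rintro _ ⟨γ, rfl⟩
    exact ⟨φ.1 (Additive.ofMul γ), rfl⟩
  have hneg : χ ⟨-1, U.neg_one_mem⟩ = 1 := Units.ext (by
    show zetaPow m (φ.1 _) = 1
    rw [φ.2 _ (by simp), zetaPow_zero])
  obtain ⟨r, -, P, hP0, hPd, hPχ, hPz⟩ :=
    Poincare.exists_form_twelve (U.neg_one_mem) hfin hneg 0
  let h : ℍ → ℂ := fun τ => P τ / ModularForm.discriminant τ ^ r
  have hd : MDiff h := by
    rw [UpperHalfPlane.mdifferentiable_iff] at hPd ⊢
    have hΔ := UpperHalfPlane.mdifferentiable_iff.mp (mdifferentiable_pow mdifferentiable_discriminant r)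
    exact hPd.div hΔ fun z _ => pow_ne_zero _ (ModularForm.discriminant_ne_zero _)
  refine ⟨⟨h, hd⟩, fun h0 => hP0 ?_, fun g => ⟨r, ?_⟩, fun γ => Subtype.ext (funext fun τ => ?_)⟩
  · have h1 : h Poincare.basePoint = 0 := congrFun (congrArg Subtype.val h0) Poincare.basePoint
    exact (div_eq_zero_iff.mp h1).resolve_right
      (pow_ne_zero _ (ModularForm.discriminant_ne_zero _))
  · have : (ModularForm.discriminant ^ r * fun τ => h (g • τ)) = P ∣[(12 * r : ℤ)] g := by
      funext τ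
      simp only [Pi.mul_apply, Pi.pow_apply, h, quot_smul]
      rw [mul_div_cancel₀ _ (pow_ne_zero _ (ModularForm.discriminant_ne_zero τ))]
    rw [this]
    exact (hPz g).isBoundedAtImInfty
  · show h ((γ : SL(2, ℤ)) • τ) = zetaPow m (φ.1 (Additive.ofMul γ)) * h τ
    simp only [h, quot_smul, hPχ γ, Pi.smul_apply, smul_eq_mul, mul_div_assoc]
    rfl

/-- Orders of invariant functions: the value group at `pointPlace τ`. -/
theorem exists_stab_period (τ : ℍ) : ∃ (s : SL(2, ℤ)) (e ℓ : ℕ) (μ : ℤ), s • τ = τ ∧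
    s ^ ℓ ∈ Γ ∧ (∀ k : ℤ, (denom s τ ^ 2) ^ k = 1 → (e : ℤ) ∣ k) ∧
    (∀ x : F, x ≠ 0 → ordMer τ (U.e x) = μ * (U.pointPlace τ).ord x) ∧
    μ * ℓ = e ∧ ℓ ≠ 0 := by
  obtain ⟨s, e, hs, hord, hprim, h1, h2⟩ := U.places_over_point τ
  set c₁ : (SL(2, ℤ) ⧸ Γ) := ((1 : SL(2, ℤ)) : (SL(2, ℤ) ⧸ Γ))
  set ℓ := Function.minimalPeriod (fun d : (SL(2, ℤ) ⧸ Γ) => s • d) c₁ with hℓ
  have hP : U.pointPlace (c₁.out⁻¹ • τ) = U.pointPlace τ := by
    rw [U.pointPlace_inv_out_smul, inv_one, one_smul]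
  have h2' : (U.pointPlace τ).ord (U.j - algebraMap ℂ F (jH τ)) = ℓ := by
    rw [← hP]; exact h2 c₁
  have hℓ0 : ℓ ≠ 0 := by
    have hp := U.ord_j_sub_pointPlace_pos τ
    omega
  obtain ⟨μ, -, hM⟩ := U.exists_ordMer_eq τ
  refine ⟨s, e, ℓ, μ, hs, ?_, hprim, hM, ?_, hℓ0⟩
  · have hfix := Function.isPeriodicPt_minimalPeriod (fun d : (SL(2, ℤ) ⧸ Γ) => s • d) c₁
    rw [← hℓ] at hfix
    have h3 : s ^ ℓ • c₁ = c₁ := by
      rw [← smul_iterate_apply]; exact hfix
    rw [MulAction.Quotient.smul_coe, smul_eq_mul, mul_one, QuotientGroup.eq] at h3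
    simpa using h3
  · have h4 := hM _ (U.j_sub_ne_zero (jH τ))
    rw [map_sub, U.emb_j, AlgHom.commutes, h2', toMerH_jC_sub,
      ordMer_algebraMap (jSubHol_ne_zero _), hord] at h4
    exact h4.symm

theorem exists_rootChar_eq (φ : Gamma0.ellParHoms Γ (ZMod m)) :
    ∃ f : divGrp ℂ F m, U.rootChar m f = φ := by
  obtain ⟨H, hH0, hmero, hact⟩ := U.exists_semiinvariant φ
  have hpow : ∀ γ : Γ, actHol (γ : SL(2, ℤ)) (H ^ m) = H ^ m := fun γ => by
    rw [map_pow, hact, mul_pow, ← map_pow, zetaPow_pow, map_one, one_mul]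
  have hmem : ((H ^ m : HolH) : ℍ → ℂ) ∈ invHol Γ := by
    refine mem_invHol.2 ⟨(H ^ m).2, fun g hg τ => congrFun (congrArg Subtype.val (hpow ⟨g, hg⟩)) τ, fun g => ?_⟩
    have : (fun τ => ((H ^ m : HolH) : ℍ → ℂ) (g • τ)) = (fun τ => (H : ℍ → ℂ) (g • τ)) ^ m := rfl
    rw [this]
    have hpw : ∀ n : ℕ, MeroAtInfty ((fun τ => (H : ℍ → ℂ) (g • τ)) ^ n) := by
      intro n
      induction n with
      | zero => rw [pow_zero]; exact MeroAtInfty.of_isBounded isBounded_one
      | succ n ih => rw [pow_succ]; exact ih.mul (hmero g)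
    exact hpw m
  set C : invHol Γ := ⟨_, hmem⟩ with hC
  have hCH : invToHolH C = H ^ m := rfl
  have hC0 : U.toField C ≠ 0 := fun h0 => pow_ne_zero m hH0 (by
    rw [← hCH, U.toField_injective (h0.trans (map_zero (U.toField)).symm), map_zero])
  have hh : (algebraMap HolH MerH H) ^ m = U.e (U.toField C) := by
    rw [U.e_toField, hCH, map_pow]
  have h0 : algebraMap HolH MerH H ≠ 0 := algebraMap_ne_zero' hH0
  have hact' : ∀ γ : Γ, actMer (γ : SL(2, ℤ)) (algebraMap HolH MerH H)
      = algebraMap ℂ MerH (zetaPow m (φ.1 (Additive.ofMul γ))) * algebraMap HolH MerH H := fun γ => by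
    rw [actMer_algebraMap, hact, map_mul, ← IsScalarTower.algebraMap_apply ℂ HolH MerH]
  have hdiv : Units.mk0 _ hC0 ∈ divGrp ℂ F m := by
    intro P
    rw [Units.val_mk0]
    rcases U.exists_eq_place P with ⟨τ, rfl⟩ | ⟨c, rfl⟩
    · obtain ⟨s, e, ℓ, M, hs, hsℓ, hprim, hM, hMℓ, hℓ0⟩ := U.exists_stab_period τ
      have hfix : actMer (s ^ ℓ) (algebraMap HolH MerH H) = algebraMap HolH MerH H := by
        rw [hact' ⟨_, hsℓ⟩, φ.2 ⟨_, hsℓ⟩, zetaPow_zero, map_one, one_mul]
        have hτ : s ^ ℓ • τ = τ := by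
          have : s ∈ MulAction.stabilizer (SL(2, ℤ)) τ := hs
          exact pow_mem this ℓ
        exact trace_sq_le_of_fixed hτ
      have hiter : (actMer s)^[ℓ] (algebraMap HolH MerH H) = algebraMap HolH MerH H := by
        rw [Genus.actMer_iterate, ← actMer_algebraMap, hfix]
      have hd := Genus.ordMer_dvd hs e hprim ℓ _ h0 hiter
      rw [← hMℓ, mul_comm M (ℓ : ℤ)] at hd
      have hd' : M ∣ ordMer τ (algebraMap HolH MerH H) :=
        (mul_dvd_mul_iff_left (by exact_mod_cast hℓ0)).mp hd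
      obtain ⟨q, hq⟩ := hd'
      have h1 := hM _ hC0
      rw [← hh] at h1
      have hp : ∀ n : ℕ, ordMer τ (algebraMap HolH MerH H ^ n)
          = n * ordMer τ (algebraMap HolH MerH H) := by
        intro n
        induction n with
        | zero => simp [ordMer]
        | succ n ih =>
          rw [pow_succ, ordMer_mul (pow_ne_zero _ h0) h0, ih]
          push_cast; ring
      rw [hp, hq] at h1
      have hM0 : M ≠ 0 := by
        rintro rfl
        obtain ⟨t, ht0, ht⟩ := FF.exists_uniformizer (U.pointPlace τ)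
        obtain ⟨M', hM'0, hM'⟩ := U.exists_ordMer_eq τ
        have := hM' _ ht0
        rw [hM _ ht0, ht] at this
        omega
      exact ⟨q, mul_left_cancel₀ hM0 (by linear_combination -h1)⟩
    · obtain ⟨M, hMpos, hMp, hM⟩ := U.order_tr c
      set p := MulAction.period ModularGroup.T c with hp
      set g : SL(2, ℤ) := c.out with hg
      have hp0 : NeZero p := ⟨fun h0 => by
        rw [h0] at hMp; simp [eq_comm, NeZero.ne N] at hMp⟩
      have hper : PerH p fun τ => (H : ℍ → ℂ) (g⁻¹ • τ) := by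
        intro τ
        show (H : ℍ → ℂ) (g⁻¹ • ((p : ℝ) +ᵥ τ)) = (H : ℍ → ℂ) (g⁻¹ • τ)
        have hTp : ModularGroup.T ^ (p : ℤ) • c = c := by
          rw [zpow_natCast]; exact MulAction.pow_period_smul ModularGroup.T c
        have hmemγ : g⁻¹ * ModularGroup.T ^ (p : ℤ) * g ∈ Γ := by
          rw [← QuotientGroup.out_eq' c, MulAction.Quotient.smul_coe, smul_eq_mul,
            QuotientGroup.eq] at hTp
          have := inv_mem hTp
          simpa [mul_assoc, hg] using this
        have h1 := congrFun (congrArg Subtype.val (hact ⟨_, hmemγ⟩)) (g⁻¹ • τ)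
        rw [φ.2 ⟨_, hmemγ⟩ (by
          show (((g⁻¹ * ModularGroup.T ^ (p : ℤ) * g : SL(2, ℤ))) : Matrix (Fin 2) (Fin 2) ℤ).trace ^ 2 ≤ 4
          rw [Matrix.SpecialLinearGroup.coe_mul, Matrix.trace_mul_comm,
            ← Matrix.SpecialLinearGroup.coe_mul, mul_inv_cancel_left, ModularGroup.coe_T_zpow]
          simp [Matrix.trace_fin_two]), zetaPow_zero, map_one, one_mul, coe_actHol] at h1
        simp only [mul_smul, smul_inv_smul, modular_T_zpow_smul, Int.cast_natCast] at h1
        exact h1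
      let G : CuspAlg p := ⟨fun τ => (H : ℍ → ℂ) (g⁻¹ • τ),
        mdifferentiable_comp_SL H.2 _, hper, hmero g⁻¹⟩
      obtain ⟨Mn, rfl⟩ := Int.eq_ofNat_of_zero_le hMpos.le
      have hMn : NeZero Mn := ⟨by omega⟩
      have hMpn : Mn * p = N := by exact_mod_cast hMp
      have hord : (laurentExp N (tr N c C)).order
          = (Mn : ℤ) * ((m : ℤ) * (laurentExp p G).order) := by
        have hG0 : laurentExp p (G ^ m) ≠ 0 := by
          rw [map_pow]
          refine pow_ne_zero _ ((map_ne_zero_iff _ (laurentExp_injective p)).mpr fun h0 => hH0 ?_)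
          refine Subtype.ext (funext fun τ => ?_)
          have := congrFun (congrArg Subtype.val h0) (g • τ)
          simpa [G] using this
        have key : ∀ (k : ℕ) [NeZero k] (hk : k = N) (y : CuspAlg k),
            (y : ℍ → ℂ) = (fun τ => ((H : ℍ → ℂ) (g⁻¹ • τ)) ^ m) →
            laurentExp k y = laurentExp N (tr N c C) := by
          rintro k _ rfl y hy
          refine congrArg _ (Subtype.ext (hy.trans (funext fun τ => ?_)))
          rw [← QuotientGroup.out_eq' c, tr_mk]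
          rfl
        have h1 := laurentExp_mul (h := p) Mn (G ^ m)
        rw [key (Mn * p) hMpn (Subalgebra.inclusion (CuspAlg_le_mul Mn (NeZero.ne Mn)) (G ^ m)) rfl] at h1
        rw [h1, Igusa.order_qExpand hG0, map_pow, HahnSeries.order_pow, nsmul_eq_mul]
      have h2 := hM _ hC0
      rw [hord] at h2
      exact ⟨(laurentExp p G).order,
        mul_left_cancel₀ (Int.natCast_ne_zero.mpr (NeZero.ne Mn)) h2.symm⟩
  refine ⟨⟨_, hdiv⟩, Subtype.ext (U.rootChar_eq_of_isRootChar _ ?_)⟩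
  exact isRootChar_of_root hC0 hh hact'

/-- The monodromy map on Kummer groups. -/
def charHom (m : ℕ) [NeZero m] :
    KummerGrp ℂ F m →* Multiplicative (Gamma0.ellParHoms Γ (ZMod m)) :=
  QuotientGroup.lift (powGrp ℂ F m)
    (MonoidHom.mk' (fun f => Multiplicative.ofAdd (U.rootChar m f))
      fun f g => by rw [← ofAdd_add, ← U.rootChar_mul])
    fun f hf => by
      show Multiplicative.ofAdd (U.rootChar m f) = 1
      rw [U.rootChar_pow_eq_zero hf]; rfl

theorem charHom_mk (f : divGrp ℂ F m) :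
    U.charHom m (QuotientGroup.mk f) = Multiplicative.ofAdd (U.rootChar m f) := rfl

theorem charHom_bijective (m : ℕ) [NeZero m] :
    Function.Bijective (U.charHom m) := by
  constructor
  · refine (injective_iff_map_eq_one _).mpr fun x hx => ?_
    obtain ⟨f, rfl⟩ := QuotientGroup.mk_surjective x
    exact (QuotientGroup.eq_one_iff f).mpr (U.mem_powGrp_of_rootChar_eq_zero hx)
  · intro x
    obtain ⟨f, hf⟩ := U.exists_rootChar_eq (m := m) x.toAdd
    exact ⟨QuotientGroup.mk f, by rw [charHom_mk, hf]; rfl⟩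

end Fermat.Agent.ModFun.Uniformisation
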