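import Fermat.Agent.JacTorsion.Parabolic

/-!
# The character of a function with divisor divisible by `m`

For `x` with `div x ∈ m · Div` an `m`-th root `h` of `x` on `ℍ` satisfies
`h ∘ γ = exp (2πi/m) ^ φ(γ) · h` with `φ ∈ ellParHoms Γ (ZMod m)`.
-/

set_option autoImplicit false
set_option linter.unusedSectionVars false

noncomputable section

open UpperHalfPlane hiding I
open AlgebraicCurve CongruenceSubgroup
open Fermat.Agent.ModFun
open scoped MatrixGroups Manifold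

namespace Fermat.Agent.JacTorsion

variable {m : ℕ} [NeZero m]

/-- `exp (2πi/m) ^ a`. -/
def zetaPow (m : ℕ) (a : ZMod m) : ℂ := Complex.exp (2 * Real.pi * Complex.I / m) ^ a.val

theorem zetaPow_pow (a : ZMod m) : zetaPow m a ^ m = 1 := by
  rw [zetaPow, ← pow_mul, mul_comm a.val m, pow_mul,
    (Complex.isPrimitiveRoot_exp m (NeZero.ne m)).pow_eq_one, one_pow]

theorem zetaPow_zero : zetaPow m (0 : ZMod m) = 1 := by simp [zetaPow]

theorem zetaPow_add (a b : ZMod m) : zetaPow m (a + b) = zetaPow m a * zetaPow m b := by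
  rw [zetaPow, zetaPow, zetaPow, ← pow_add, ZMod.val_add]
  exact (pow_eq_pow_mod _ (Complex.isPrimitiveRoot_exp m (NeZero.ne m)).pow_eq_one).symm

theorem zetaPow_injective : Function.Injective (zetaPow m) := fun a b h =>
  ZMod.val_injective m ((Complex.isPrimitiveRoot_exp m (NeZero.ne m)).pow_inj (ZMod.val_lt a)
    (ZMod.val_lt b) h)

theorem exists_zetaPow {c : ℂ} (hc : c ^ m = 1) : ∃ a : ZMod m, zetaPow m a = c := by
  obtain ⟨i, hi, rfl⟩ := (Complex.isPrimitiveRoot_exp m (NeZero.ne m)).eq_pow_of_pow_eq_one hc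
  exact ⟨i, by rw [zetaPow, ZMod.val_natCast_of_lt hi]⟩

theorem zetaPow_ne_zero (a : ZMod m) : zetaPow m a ≠ 0 :=
  pow_ne_zero _ (Complex.exp_ne_zero _)

theorem actMer_mul (g g' : SL(2, ℤ)) (x : MerH) : actMer (g * g') x = actMer g' (actMer g x) := by
  obtain ⟨a, b, -, rfl⟩ := IsFractionRing.div_surjective (A := HolH) x
  have : ∀ f : HolH, actHol (g * g') f = actHol g' (actHol g f) := fun f =>
    Subtype.ext (funext fun τ => by simp [coe_actHol, mul_smul])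
  simp only [map_div₀, actMer_algebraMap, this]

variable {N : ℕ} [NeZero N] {Γ : Subgroup SL(2, ℤ)} {F : Type} [Field F] [Algebra ℂ F]

/-- `φ` describes the monodromy of the `m`-th roots of `x`. -/
def IsRootChar (e : F →ₐ[ℂ] MerH) (x : F) (φ : Additive Γ →+ ZMod m) : Prop :=
  ∀ h : MerH, h ^ m = e x → ∀ γ : Γ,
    actMer (γ : SL(2, ℤ)) h = algebraMap ℂ MerH (zetaPow m (φ (Additive.ofMul γ))) * h

theorem root_ne_zero {e : F →ₐ[ℂ] MerH} {x : F} (hx0 : x ≠ 0) {h : MerH} (hh : h ^ m = e x) : h ≠ 0 := by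
  rintro rfl
  rw [zero_pow (NeZero.ne m)] at hh
  exact (map_ne_zero (e)).mpr hx0 hh.symm

theorem eq_of_zetaPow_mul {h : MerH} (h0 : h ≠ 0) {a b : ZMod m}
    (he : algebraMap ℂ MerH (zetaPow m a) * h = algebraMap ℂ MerH (zetaPow m b) * h) : a = b :=
  zetaPow_injective ((algebraMap ℂ MerH).injective (mul_right_cancel₀ h0 he))

theorem IsRootChar.unique {e : F →ₐ[ℂ] MerH} {x : F} (hx0 : x ≠ 0) {φ ψ : Additive Γ →+ ZMod m}
    {h : MerH} (hh : h ^ m = e x) (hφ : IsRootChar e x φ) (hψ : IsRootChar e x ψ) : φ = ψ := by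
  refine AddMonoidHom.ext fun γ => ?_
  have h1 := hφ h hh γ.toMul
  rw [hψ h hh γ.toMul] at h1
  simpa using (eq_of_zetaPow_mul (root_ne_zero hx0 hh) h1).symm

/-- A single root suffices to establish the monodromy. -/
theorem isRootChar_of_root {e : F →ₐ[ℂ] MerH} {x : F} (hx0 : x ≠ 0) {φ : Additive Γ →+ ZMod m}
    {h : MerH} (hh : h ^ m = e x)
    (hφ : ∀ γ : Γ,
      actMer (γ : SL(2, ℤ)) h = algebraMap ℂ MerH (zetaPow m (φ (Additive.ofMul γ))) * h) :
    IsRootChar e x φ := by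
  intro h' hh' γ
  obtain ⟨ζ, -, rfl⟩ := exists_const_mul (NeZero.ne m) (root_ne_zero hx0 hh) (hh'.trans hh.symm)
  rw [map_mul, AlgEquiv.commutes, hφ]
  ring

end Fermat.Agent.JacTorsion

namespace Fermat.Agent.ModFun.Uniformisation

open Fermat.Agent.JacTorsion

variable {m : ℕ} [NeZero m]

variable {N : ℕ} [NeZero N] {Γ : Subgroup SL(2, ℤ)} [Fact (CongruenceSubgroup.Gamma N ≤ Γ)]
  [Γ.FiniteIndex] {F : Type} [Field F] [Algebra ℂ F] [FF.IsFunctionField ℂ F]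
  (U : Uniformisation N Γ F)

theorem exists_isRootChar {x : F} (hx0 : x ≠ 0)
    (hx : ∀ P : Place ℂ F, (m : ℤ) ∣ P.ord x) :
    ∃ φ ∈ Gamma0.ellParHoms Γ (ZMod m), IsRootChar U.e x φ := by
  obtain ⟨H, b, C, -, hb, hHC, hC, hh⟩ := U.exists_root hx0 hx
  set h : MerH := algebraMap HolH MerH H / U.e (U.toField b) with hdef
  have h0 : h ≠ 0 := root_ne_zero hx0 hh
  have hex : ∀ γ : Γ, ∃ a : ZMod m,
      actMer (γ : SL(2, ℤ)) h = algebraMap ℂ MerH (zetaPow m a) * h := fun γ => by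
    obtain ⟨ζ, hζ, he⟩ := exists_const_mul (NeZero.ne m) h0
      (show (actMer (γ : SL(2, ℤ)) h) ^ m = h ^ m by rw [← map_pow, hh, U.actMer_e γ.2])
    obtain ⟨a, ha⟩ := exists_zetaPow (m := m) hζ
    exact ⟨a, by rw [ha, he]⟩
  choose a ha using hex
  have hmul : ∀ γ δ : Γ, a (γ * δ) = a γ + a δ := fun γ δ => by
    refine eq_of_zetaPow_mul h0 ?_
    rw [← ha, zetaPow_add, map_mul, Subgroup.coe_mul, actMer_mul, ha, map_mul, AlgEquiv.commutes,
      ha]
    ring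
  let φ : Additive Γ →+ ZMod m :=
    AddMonoidHom.mk' (fun γ => a γ.toMul) fun γ δ => hmul γ.toMul δ.toMul
  refine ⟨φ, fun γ hγ => ?_, isRootChar_of_root hx0 hh ha⟩
  show a γ = 0
  refine zetaPow_injective ?_
  rw [zetaPow_zero]
  -- an element fixing a point
  have helliptic : ∀ τ : ℍ, (γ : SL(2, ℤ)) • τ = τ → zetaPow m (a γ) = 1 := fun τ hτ =>
    U.const_eq_one_of_fixed γ.2 hτ hx0 hx hh (ha γ)
  obtain ⟨g, n, hn, hgn⟩ := Gamma0.hasStdConj_of_trace_sq (γ : SL(2, ℤ)) hγ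
  have hγn : (γ : SL(2, ℤ)) = g⁻¹ * n * g⁻¹⁻¹ ∨ (γ : SL(2, ℤ)) = -(g⁻¹ * n * g⁻¹⁻¹) := by
    rcases hgn with h' | h'
    · left; rw [← h']; simp [mul_assoc]
    · right
      have h'' : n = -(g * (γ : SL(2, ℤ)) * g⁻¹) := by rw [h', neg_neg]
      rw [h'', mul_neg, neg_mul, neg_neg]
      simp [mul_assoc]
  have hfix : ∀ τ : ℍ, n • τ = τ → (γ : SL(2, ℤ)) • (g⁻¹ • τ) = g⁻¹ • τ := fun τ hτ => by
    rw [smul_eq_of_eq_or_neg hγn, mul_smul, mul_smul, inv_smul_smul, hτ]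
  rcases hn with rfl | rfl | rfl | ⟨k, rfl⟩
  · exact helliptic _ (hfix _ Genus.S_smul_I)
  · exact helliptic _ (hfix _ Genus.ST_smul_ρ)
  · refine helliptic _ (hfix UpperHalfPlane.ρ ?_)
    rw [mul_smul]
    exact (congrArg (Gamma0.ST • ·) Genus.ST_smul_ρ).trans Genus.ST_smul_ρ
  · rcases eq_or_ne k 0 with rfl | hk
    · exact helliptic _ (hfix UpperHalfPlane.I (by rw [zpow_zero, one_smul]))
    · exact U.const_eq_one_of_parabolic hk γ.2 hγn hx0 hx hb hHC hC (zetaPow_pow _)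
        (U.e_algebraMap_inv γ.2 hb (ha γ))

/-- The monodromy of the `m`-th roots. -/
def rootChar (m : ℕ) [NeZero m] (f : divGrp ℂ F m) : Gamma0.ellParHoms Γ (ZMod m) :=
  ⟨(U.exists_isRootChar (Units.ne_zero (f : Fˣ)) f.2).choose,
    (U.exists_isRootChar (Units.ne_zero (f : Fˣ)) f.2).choose_spec.1⟩

theorem rootChar_spec (f : divGrp ℂ F m) :
    IsRootChar U.e ((f : Fˣ) : F) (U.rootChar m f).1 :=
  (U.exists_isRootChar (Units.ne_zero (f : Fˣ)) f.2).choose_spec.2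

theorem exists_mer_root (f : divGrp ℂ F m) :
    ∃ h : MerH, h ^ m = U.e ((f : Fˣ) : F) := by
  obtain ⟨H, b, C, -, -, -, -, hh⟩ := U.exists_root (Units.ne_zero (f : Fˣ)) f.2
  exact ⟨_, hh⟩

theorem rootChar_eq_of_isRootChar (f : divGrp ℂ F m) {φ : Additive Γ →+ ZMod m}
    (hφ : IsRootChar U.e ((f : Fˣ) : F) φ) : (U.rootChar m f).1 = φ := by
  obtain ⟨h, hh⟩ := U.exists_mer_root f
  exact (U.rootChar_spec f).unique (Units.ne_zero _) hh hφ

theorem rootChar_mul (f g : divGrp ℂ F m) :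
    U.rootChar m (f * g) = U.rootChar m f + U.rootChar m g := by
  refine Subtype.ext (U.rootChar_eq_of_isRootChar _ ?_)
  obtain ⟨hf, hhf⟩ := U.exists_mer_root f
  obtain ⟨hg, hhg⟩ := U.exists_mer_root g
  refine isRootChar_of_root (Units.ne_zero _) (h := hf * hg) ?_ fun γ => ?_
  · rw [mul_pow, hhf, hhg, ← map_mul]; rfl
  · rw [map_mul, U.rootChar_spec f hf hhf γ, U.rootChar_spec g hg hhg γ, AddSubgroup.coe_add,
      AddMonoidHom.add_apply, zetaPow_add, map_mul]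
    ring

theorem rootChar_pow_eq_zero {f : divGrp ℂ F m} (hf : f ∈ powGrp ℂ F m) :
    U.rootChar m f = 0 := by
  obtain ⟨g, hg⟩ := hf
  refine Subtype.ext (U.rootChar_eq_of_isRootChar _ ?_)
  refine isRootChar_of_root (Units.ne_zero _) (h := U.e (g : F)) ?_ fun γ => ?_
  · rw [← map_pow, ← Units.val_pow_eq_pow_val]
    rw [powMonoidHom_apply] at hg
    rw [hg]; rfl
  · rw [U.actMer_e γ.2]
    simp [zetaPow_zero]

end Fermat.Agent.ModFun.Uniformisation
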