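import Fermat.Agent.JacTorsion.CharSurjective

/-!
# `X₀(N)` as a uniformised function field
-/

set_option autoImplicit false
set_option linter.unusedSectionVars false

noncomputable section

open UpperHalfPlane hiding I
open AlgebraicCurve CongruenceSubgroup
open Fermat.Agent.ModFun
open scoped MatrixGroups Manifold

namespace Fermat.Agent.JacTorsion

variable (N : ℕ) [NeZero N]

/-- The field of `Γ₀(N)` on the upper half plane. -/
abbrev uniformisation : Uniformisation N (Gamma0 N) (FC N) := uniformisation0 N

/-- Elements of the function field as meromorphic functions on `ℍ`. -/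
abbrev e1 : FC N →ₐ[ℂ] MerH := emb N ((1 : SL(2, ℤ)) : Coset N)

/-- `Hol N` inside `HolH`. -/
def holToHolH : Hol N →ₐ[ℂ] HolH := invToHolH

variable {N}

theorem e1_toFC (a : Hol N) : e1 N (toFC N a) = algebraMap HolH MerH (holToHolH N a) :=
  (uniformisation N).e_toField a

theorem actMer_e1 {g : SL(2, ℤ)} (hg : g ∈ Gamma0 N) (x : FC N) : actMer g (e1 N x) = e1 N x :=
  (uniformisation N).actMer_e hg x

/-- A function whose divisor is divisible by `m` has an `m`-th root on `ℍ`. -/
theorem exists_root {m : ℕ} [NeZero m] {x : FC N} (hx0 : x ≠ 0)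
    (hx : ∀ P : Place ℂ (FC N), (m : ℤ) ∣ P.ord x) :
    ∃ (H : HolH) (b C : Hol N), H ≠ 0 ∧ b ≠ 0 ∧ H ^ m = holToHolH N C ∧
      toFC N C = x * toFC N b ^ m ∧
      (algebraMap HolH MerH H / e1 N (toFC N b)) ^ m = e1 N x :=
  (uniformisation N).exists_root hx0 hx

end Fermat.Agent.JacTorsion
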