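import Fermat.Agent.JacTorsion.Root
import Fermat.Agent.Gamma0.Conj
import Fermat.Agent.Gamma0.Main

/-!
# Roots of functions have trivial multiplier at parabolic elements
-/

set_option autoImplicit false
set_option linter.unusedSectionVars false

noncomputable section

open UpperHalfPlane hiding I
open AlgebraicCurve CongruenceSubgroup Function Filter
open Fermat.Agent.ModFun
open scoped MatrixGroups Manifold Topology

namespace Fermat.Agent.JacTorsion

variable {h : ℕ} [NeZero h]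

theorem tendsto_valueAtInfty {f : ℍ → ℂ} (hf : f ∈ BddAlg h) :
    Tendsto f atImInfty (𝓝 (valueAtInfty f)) := by
  have h1 := UpperHalfPlane.exp_decay_sub_atImInfty (cast_pos_of_neZero h)
    hf.2.1.periodic_comp_ofComplex hf.1 hf.2.2
  have h2 : Tendsto (fun τ : ℍ => Real.exp (-2 * Real.pi * τ.im / h)) atImInfty (𝓝 0) := by
    refine Real.tendsto_exp_atBot.comp ?_
    have h3 : Tendsto (fun τ : ℍ => τ.im) atImInfty atTop := tendsto_comap
    have hneg : (-2 * Real.pi) / (h : ℝ) < 0 :=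
      div_neg_of_neg_of_pos (by linarith [Real.pi_pos]) (cast_pos_of_neZero h)
    refine (h3.const_mul_atTop_of_neg hneg).congr fun τ => ?_
    ring
  exact tendsto_sub_nhds_zero_iff.mp (h1.trans_tendsto h2)

/-- `qFun h ^ d` for an integer `d`. -/
def qZpow (h : ℕ) [NeZero h] (d : ℤ) : CuspAlg h := qFunC h ^ d.toNat * qInvC h ^ (-d).toNat

theorem qZpow_apply (d : ℤ) (τ : ℍ) : (qZpow h d : ℍ → ℂ) τ = qFun h τ ^ d := by
  show qFun h τ ^ d.toNat * (qFun h τ)⁻¹ ^ (-d).toNat = qFun h τ ^ d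
  rw [inv_pow, ← zpow_natCast, ← zpow_natCast, ← div_eq_mul_inv,
    ← zpow_sub₀ (qFun_ne_zero h τ), Int.toNat_sub_toNat_neg]

theorem laurentExp_qZpow (d : ℤ) : laurentExp h (qZpow h d) = HahnSeries.single d 1 := by
  rw [qZpow, map_mul, map_pow, map_pow, laurentExp_qFunC, laurentExp_qInvC, HahnSeries.single_pow,
    HahnSeries.single_pow, HahnSeries.single_mul_single, one_pow, one_pow, one_mul]
  congr 2
  have := Int.toNat_sub_toNat_neg d
  simp only [nsmul_eq_mul, mul_one, mul_neg]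
  omega

/-- A cusp function renormalised by its order has a nonzero limit at infinity. -/
theorem tendsto_renormalised {f : CuspAlg h} (hf : f ≠ 0) :
    ∃ L : ℂ, L ≠ 0 ∧ Tendsto (fun τ => (qZpow h (-(laurentExp h f).order) : ℍ → ℂ) τ
      * (f : ℍ → ℂ) τ) atImInfty (𝓝 L) := by
  set g : CuspAlg h := qZpow h (-(laurentExp h f).order) * f with hg
  have hL : laurentExp h f ≠ 0 := (map_ne_zero_iff _ (laurentExp_injective h)).mpr hf
  have hexp : laurentExp h g
      = HahnSeries.single (-(laurentExp h f).order) 1 * laurentExp h f := by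
    rw [hg, map_mul, laurentExp_qZpow]
  have hb : IsBoundedAtImInfty (g : ℍ → ℂ) := isBounded_of_coeff_neg fun k hk => by
    rw [hexp, HahnSeries.coeff_single_mul, one_mul]
    exact HahnSeries.coeff_eq_zero_of_lt_order (by omega)
  have hgB : (g : ℍ → ℂ) ∈ BddAlg h := ⟨g.2.1, g.2.2.1, hb⟩
  refine ⟨(laurentExp h f).coeff (laurentExp h f).order,
    mt HahnSeries.coeff_order_eq_zero.mp hL, ?_⟩
  have ht := tendsto_valueAtInfty hgB
  have h0 : valueAtInfty (g : ℍ → ℂ) = (laurentExp h f).coeff (laurentExp h f).order := by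
    have h1 := laurentExp_of_bdd h (⟨(g : ℍ → ℂ), hgB⟩ : BddAlg h)
    have h2 := congrArg (fun z : LaurentSeries ℂ => z.coeff ((0 : ℕ) : ℤ)) h1
    simp only [HahnSeries.ofPowerSeries_apply_coeff, qExpBdd_apply] at h2
    rw [UpperHalfPlane.qExpansion_coeff_zero (cast_pos_of_neZero h)
      (analyticAt_cuspFunction h hgB) hgB.2.1.periodic_comp_ofComplex] at h2
    rw [← h2]
    show ((laurentExp h g).coeff ((0 : ℕ) : ℤ)) = _
    rw [hexp, HahnSeries.coeff_single_mul, one_mul]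
    simp
  rw [h0] at ht
  exact ht

variable {N : ℕ} [NeZero N]

theorem smul_eq_of_eq_or_neg {γ γ' : SL(2, ℤ)} (h : γ = γ' ∨ γ = -γ') (τ : ℍ) :
    γ • τ = γ' • τ := by
  rcases h with rfl | rfl
  · rfl
  · rw [← ModularGroup.SL_neg_smul]; simp

theorem qFun_zpow_T (M : ℤ) (p : ℕ) (d k : ℤ) (hMp : M * p = N) (hpk : (p : ℤ) ∣ k) (τ : ℍ) :
    qFun N (((k : ℝ) +ᵥ τ)) ^ (M * d) = qFun N τ ^ (M * d) := by
  obtain ⟨i, rfl⟩ := hpk
  simp only [qFun, Periodic.qParam, ← Complex.exp_int_mul, coe_vadd]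
  rw [Complex.exp_eq_exp_iff_exists_int]
  refine ⟨i * d, ?_⟩
  have hN : ((N : ℝ) : ℂ) ≠ 0 := by exact_mod_cast NeZero.ne N
  have hMp' : (M : ℂ) * p = ((N : ℝ) : ℂ) := by exact_mod_cast hMp
  push_cast at hN hMp' ⊢
  field_simp
  linear_combination ((i : ℂ) * (d : ℂ)) * hMp'

/-- A renormalised root `G` of a cusp function `f`, semi-invariant under a translation, is
invariant. -/
theorem const_eq_one_of_translate {m : ℕ} [NeZero m] {f : CuspAlg N} (hf : f ≠ 0)
    {μ d : ℤ} {p : ℕ} (hMp : μ * p = N) {k : ℤ} (hk : k ≠ 0) (hpk : (p : ℤ) ∣ k)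
    (hord : (laurentExp N f).order = (m : ℤ) * (μ * d)) {G : HolH}
    (hG : ∀ τ, (G : ℍ → ℂ) τ ^ m = (f : ℍ → ℂ) τ) {c : ℂ} (hcm : c ^ m = 1)
    (hGk : ∀ τ : ℍ, (G : ℍ → ℂ) ((k : ℝ) +ᵥ τ) = c * (G : ℍ → ℂ) τ) : c = 1 := by
  obtain ⟨L, hL, hlim⟩ := tendsto_renormalised hf
  rw [hord] at hlim
  set u : ℍ → ℂ := fun τ => qFun N τ ^ (-(μ * d)) * (G : ℍ → ℂ) τ with hu
  have hu_pow : ∀ τ, u τ ^ m = (qZpow N (-((m : ℤ) * (μ * d))) : ℍ → ℂ) τ
      * (f : ℍ → ℂ) τ := fun τ => by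
    rw [qZpow_apply, hu]
    simp only
    rw [mul_pow, ← zpow_natCast (qFun N τ ^ _), ← zpow_mul, hG]
    congr 2
    ring
  have huk : ∀ τ, u ((k : ℝ) +ᵥ τ) = c * u τ := fun τ => by
    rw [hu]
    simp only
    rw [hGk, ← mul_neg, qFun_zpow_T μ p (-d) k hMp hpk]
    ring
  have hc0 : c ≠ 0 := fun h => by
    rw [h, zero_pow (NeZero.ne m)] at hcm; exact zero_ne_one hcm
  -- `u` is periodic and bounded
  have hukn : ∀ (n : ℕ) (τ : ℍ), u ((((n : ℤ) * k : ℤ) : ℝ) +ᵥ τ) = c ^ n * u τ := by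
    intro n
    induction n with
    | zero => intro τ; simp
    | succ n ih =>
      intro τ
      have : ((((n + 1 : ℕ) : ℤ) * k : ℤ) : ℝ) +ᵥ τ
          = ((((n : ℤ) * k : ℤ) : ℝ) +ᵥ ((k : ℝ) +ᵥ τ)) := by
        rw [vadd_vadd]; push_cast; congr 1; ring
      rw [this, ih, huk, pow_succ]; ring
  let K : ℕ := m * k.natAbs
  have : NeZero K := ⟨mul_ne_zero (NeZero.ne m) (Int.natAbs_ne_zero.mpr hk)⟩
  have huper : PerH K u := by
    intro τ
    rcases Int.natAbs_eq k with hk' | hk'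
    · have h1 := hukn m τ
      rw [hcm, one_mul] at h1
      have hK : (m : ℤ) * k = ((K : ℕ) : ℤ) :=
        (congrArg ((m : ℤ) * ·) hk').trans (Nat.cast_mul m k.natAbs).symm
      rwa [hK, Int.cast_natCast] at h1
    · have h1 := hukn m ((K : ℝ) +ᵥ τ)
      rw [hcm, one_mul, vadd_vadd] at h1
      have hK : (m : ℤ) * k = -((K : ℕ) : ℤ) := by
        refine (congrArg ((m : ℤ) * ·) hk').trans ?_
        show (m : ℤ) * -(k.natAbs : ℤ) = -(((m * k.natAbs : ℕ)) : ℤ)
        rw [mul_neg, Nat.cast_mul]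
      rw [hK, Int.cast_neg, Int.cast_natCast, neg_add_cancel, zero_vadd] at h1
      exact h1.symm
  have hud : MDiff u := by
    rw [hu]
    have h1 : MDiff fun τ : ℍ => qFun N τ ^ (-(μ * d)) := by
      have := (qZpow N (-(μ * d))).2.1
      convert! this using 1
      funext τ; rw [qZpow_apply]
    exact h1.mul G.2
  have hbdd : IsBoundedAtImInfty u := by
    rw [UpperHalfPlane.isBoundedAtImInfty_iff]
    have hev : ∀ᶠ τ in atImInfty, ‖u τ ^ m‖ ≤ ‖L‖ + 1 := by
      have h1 : Tendsto (fun τ => u τ ^ m) atImInfty (𝓝 L) :=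
        hlim.congr fun τ => (hu_pow τ).symm
      exact (h1.norm.eventually_le_const (by linarith [norm_nonneg L]))
    rw [Filter.Eventually, atImInfty_mem] at hev
    obtain ⟨A, hA⟩ := hev
    refine ⟨max (‖L‖ + 1) 1, A, fun τ hτ => ?_⟩
    have h1 : ‖u τ‖ ^ m ≤ ‖L‖ + 1 := by rw [← norm_pow]; exact hA τ hτ
    rcases le_or_gt ‖u τ‖ 1 with h2 | h2
    · exact h2.trans (le_max_right _ _)
    · exact ((le_self_pow₀ h2.le (NeZero.ne m)).trans h1).trans (le_max_left _ _)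
  have hlimu := tendsto_valueAtInfty (h := K) ⟨hud, huper, hbdd⟩
  have hne : valueAtInfty u ^ m = L :=
    tendsto_nhds_unique (hlimu.pow m) (hlim.congr fun τ => (hu_pow τ).symm)
  have hshift : Tendsto (fun τ : ℍ => (k : ℝ) +ᵥ τ) atImInfty atImInfty := by
    refine tendsto_comap_iff.mpr ?_
    have h1 : Tendsto (fun τ : ℍ => τ.im) atImInfty atTop := tendsto_comap
    exact h1.congr fun τ => by simp
  have h2 : Tendsto (fun τ => c * u τ) atImInfty (𝓝 (valueAtInfty u)) :=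
    (hlimu.comp hshift).congr fun τ => huk τ
  have h3 := tendsto_nhds_unique h2 (hlimu.const_mul c)
  have hv : valueAtInfty u ≠ 0 := fun h => hL (by rw [← hne, h, zero_pow (NeZero.ne m)])
  exact mul_right_cancel₀ hv (by rw [one_mul]; exact h3.symm)

end Fermat.Agent.JacTorsion

namespace Fermat.Agent.ModFun.Uniformisation

open Fermat.Agent.JacTorsion

variable {N : ℕ} [NeZero N] {Γ : Subgroup SL(2, ℤ)} [Fact (CongruenceSubgroup.Gamma N ≤ Γ)]
  [Γ.FiniteIndex] {F : Type} [Field F] [Algebra ℂ F] [FF.IsFunctionField ℂ F]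
  (U : Uniformisation N Γ F)

theorem e_algebraMap_inv {γ : SL(2, ℤ)} (hγ : γ ∈ Γ) {H : HolH} {b : invHol Γ} {c : ℂ}
    (hb : b ≠ 0)
    (hc : actMer γ (algebraMap HolH MerH H / U.e (U.toField b))
      = algebraMap ℂ MerH c * (algebraMap HolH MerH H / U.e (U.toField b))) :
    actHol γ H = algebraMap ℂ HolH c * H := by
  have hb' : U.e (U.toField b) ≠ 0 := (map_ne_zero _).mpr (U.toField_ne_zero hb)
  rw [map_div₀, U.actMer_e hγ, ← mul_div_assoc, div_left_inj' hb', actMer_algebraMap,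
    IsScalarTower.algebraMap_apply ℂ HolH MerH, ← map_mul] at hc
  exact IsFractionRing.injective HolH MerH hc

/-- Parabolic elements act trivially on roots of functions in the field. -/
theorem const_eq_one_of_parabolic {m : ℕ} [NeZero m] {γ α : SL(2, ℤ)} {k : ℤ} (hk : k ≠ 0)
    (hγ : γ ∈ Γ)
    (hγα : γ = α * ModularGroup.T ^ k * α⁻¹ ∨ γ = -(α * ModularGroup.T ^ k * α⁻¹))
    {x : F} (hx0 : x ≠ 0) (hx : ∀ P : Place ℂ F, (m : ℤ) ∣ P.ord x)
    {H : HolH} {b C : invHol Γ} (hb : b ≠ 0) (hHC : H ^ m = invToHolH C)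
    (hC : U.toField C = x * U.toField b ^ m) {c : ℂ} (hcm : c ^ m = 1)
    (hc : actHol γ H = algebraMap ℂ HolH c * H) : c = 1 := by
  set c₀ : SL(2, ℤ) ⧸ Γ := ((α⁻¹ : SL(2, ℤ)) : SL(2, ℤ) ⧸ Γ) with hc₀
  have hTk : ModularGroup.T ^ k • c₀ = c₀ := by
    rw [hc₀, MulAction.Quotient.smul_coe, smul_eq_mul, QuotientGroup.eq]
    have : (ModularGroup.T ^ k * α⁻¹)⁻¹ * α⁻¹ = (α * ModularGroup.T ^ k * α⁻¹)⁻¹ := by
      simp [mul_assoc]
    rw [this, inv_mem_iff]
    rcases hγα with h | h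
    · rwa [← h]
    · have h' : α * ModularGroup.T ^ k * α⁻¹ = -γ := by rw [h, neg_neg]
      rw [h', ← neg_one_mul]
      exact mul_mem U.neg_one_mem hγ
  have hpk : (MulAction.period ModularGroup.T c₀ : ℤ) ∣ k :=
    MulAction.zpow_smul_eq_iff_period_dvd.mp hTk
  obtain ⟨μ, -, hMp, hμ⟩ := U.order_tr c₀
  have hbF : U.toField b ≠ 0 := U.toField_ne_zero hb
  have hC0 : U.toField C ≠ 0 := by rw [hC]; exact mul_ne_zero hx0 (pow_ne_zero _ hbF)
  have hC0' : tr N c₀ C ≠ 0 := (map_ne_zero_iff _ (tr_injective c₀)).mpr fun h =>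
    hC0 (by rw [h, map_zero])
  obtain ⟨D, hD⟩ := hx (U.cuspPlace c₀)
  refine const_eq_one_of_translate hC0' hMp hk hpk
    (d := D + (U.cuspPlace c₀).ord (U.toField b)) ?_ (G := actHol α H) (fun τ => ?_) hcm
    fun τ => ?_
  · rw [hμ _ hC0, hC, (U.cuspPlace c₀).ord_mul hx0 (pow_ne_zero _ hbF), hD, FF.ord_pow]
    ring
  · rw [coe_actHol, hc₀, tr_mk, inv_inv]
    exact congrFun (congrArg Subtype.val hHC) (α • τ)
  · have h1 := congrFun (congrArg Subtype.val hc) (α • τ)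
    rw [coe_actHol, smul_eq_of_eq_or_neg hγα, mul_smul, mul_smul, inv_smul_smul,
      modular_T_zpow_smul] at h1
    rw [coe_actHol, coe_actHol, h1]
    rfl

end Fermat.Agent.ModFun.Uniformisation
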