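import Fermat.Agent.ModFun.CuspPlaces
import Fermat.Agent.JacTorsion.MRoot
import Fermat.Agent.JacTorsion.Kummer
import Mathlib.RingTheory.RootsOfUnity.Complex

/-!
# Roots of functions on a uniformised function field

A function with divisor divisible by `m` has an `m`-th root on `ℍ`.
-/

set_option autoImplicit false
set_option linter.unusedSectionVars false

noncomputable section

open UpperHalfPlane hiding I
open AlgebraicCurve CongruenceSubgroup
open Fermat.Agent.ModFun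
open scoped MatrixGroups Manifold

namespace Fermat.Agent.JacTorsion

theorem algebraMap_ne_zero' {f : HolH} (hf : f ≠ 0) : algebraMap HolH MerH f ≠ 0 :=
  (map_ne_zero_iff _ (IsFractionRing.injective HolH MerH)).mpr hf

/-- Functions on `ℍ` with equal `m`-th powers differ by a constant. -/
theorem exists_const_mul {m : ℕ} (hm : m ≠ 0) {h h' : MerH} (h0 : h ≠ 0) (he : h' ^ m = h ^ m) :
    ∃ ζ : ℂ, ζ ^ m = 1 ∧ h' = algebraMap ℂ MerH ζ * h := by
  have : NeZero m := ⟨hm⟩
  have hprim := (Complex.isPrimitiveRoot_exp m hm).map_of_injective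
    (f := algebraMap ℂ MerH) (algebraMap ℂ MerH).injective
  have hq : (h' / h) ^ m = 1 := by rw [div_pow, he, div_self (pow_ne_zero _ h0)]
  obtain ⟨i, -, hi⟩ := hprim.eq_pow_of_pow_eq_one hq
  refine ⟨Complex.exp (2 * Real.pi * Complex.I / m) ^ i, ?_, ?_⟩
  · rw [← pow_mul, mul_comm i m, pow_mul, (Complex.isPrimitiveRoot_exp m hm).pow_eq_one, one_pow]
  · rw [map_pow, hi, div_mul_cancel₀ _ h0]

/-- A holomorphic function with orders divisible by `m` has an `m`-th root. -/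
theorem exists_holH_pow_eq {m : ℕ} (hm : m ≠ 0) {C : HolH} (hC : C ≠ 0)
    (hdvd : ∀ τ : ℍ, (m : ℤ) ∣ ordMer τ (algebraMap HolH MerH C)) : ∃ G : HolH, G ^ m = C := by
  obtain ⟨H, hHd, hH⟩ := exists_differentiableOn_pow_eq hm
    (C := (C : ℍ → ℂ) ∘ ofComplex) (UpperHalfPlane.mdifferentiable_iff.mp C.2) fun z hz => by
      have h := hdvd ⟨z, hz⟩
      rw [ordMer_algebraMap hC, Int.natCast_dvd_natCast] at h
      obtain ⟨n, hn⟩ := h
      exact ⟨n, by rw [← hn, cast_ordHol hC]⟩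
  have hHm : MDiff fun τ : ℍ => H τ := by
    rw [UpperHalfPlane.mdifferentiable_iff]
    exact hHd.congr fun z hz => by simp [ofComplex_apply_of_im_pos hz]
  refine ⟨⟨fun τ : ℍ => H τ, hHm⟩, Subtype.ext (funext fun τ => ?_)⟩
  show (H τ) ^ m = _
  rw [hH τ τ.im_pos]
  simp

theorem ordMer_pow {h : MerH} (h0 : h ≠ 0) (τ : ℍ) (n : ℕ) :
    ordMer τ (h ^ n) = n * ordMer τ h := by
  induction n with
  | zero => simp [ordMer]
  | succ n ih =>
    rw [pow_succ, ordMer_mul (pow_ne_zero _ h0) h0, ih]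
    push_cast; ring

/-- Scalar multiplier of a semi-invariant meromorphic function at a fixed point. -/
theorem const_eq_denom_zpow {τ : ℍ} {s : SL(2, ℤ)} (hs : s • τ = τ) {g : MerH} (hg : g ≠ 0)
    {c : ℂ} (h : actMer s g = algebraMap ℂ MerH c * g) :
    c = (denom s τ ^ 2) ^ (-ordMer τ g) := by
  obtain ⟨a, b, hb, rfl⟩ := IsFractionRing.div_surjective (A := HolH) g
  have hb0 : b ≠ 0 := mem_nonZeroDivisors_iff_ne_zero.mp hb
  have ha0 : a ≠ 0 := by rintro rfl; simp at hg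
  have hsb : actHol s b ≠ 0 := (map_ne_zero_iff _ (actHol s).injective).mpr hb0
  rw [map_div₀, actMer_algebraMap, actMer_algebraMap,
    IsScalarTower.algebraMap_apply ℂ HolH MerH, mul_div_assoc',
    div_eq_div_iff (algebraMap_ne_zero' hsb) (algebraMap_ne_zero' hb0), ← map_mul, ← map_mul,
    ← map_mul] at h
  have heq := IsFractionRing.injective HolH MerH h
  obtain ⟨ca, hca, hta⟩ := Genus.tendsto_actHol_div hs ha0
  obtain ⟨cb, hcb, htb⟩ := Genus.tendsto_actHol_div hs hb0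
  have h1 := (hta 1).mul (htb 0)
  have h2 := ((hta 0).mul (htb 1)).const_mul c
  simp only [pow_one, pow_zero, one_pow, inv_one, one_mul] at h1 h2
  have h12 := tendsto_nhds_unique h1 (h2.congr' (Filter.Eventually.of_forall fun z => ?_))
  swap
  · have he := congrFun (congrArg Subtype.val heq) (ofComplex z)
    have hone : ∀ f : HolH, actHol (1 : SL(2, ℤ)) f = f := fun f =>
      Subtype.ext (funext fun w => by simp)
    simp only [Subalgebra.coe_mul, Pi.mul_apply] at he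
    have hc : ((algebraMap ℂ HolH c : HolH) : ℍ → ℂ) (ofComplex z) = c := rfl
    rw [hc] at he
    simp only [hone]
    rw [div_mul_div_comm, div_mul_div_comm, he]
    ring
  have hd : denom s τ ≠ 0 := denom_ne_zero _ _
  set p := analyticOrderNatAt ((a : ℍ → ℂ) ∘ ofComplex) (τ : ℂ)
  set q := analyticOrderNatAt ((b : ℍ → ℂ) ∘ ofComplex) (τ : ℂ)
  have hl : denom s τ ^ 2 ≠ 0 := pow_ne_zero _ hd
  have h3 : ((denom s τ ^ 2)⁻¹) ^ p = c * ((denom s τ ^ 2)⁻¹) ^ q := by
    apply mul_right_cancel₀ (mul_ne_zero hca hcb)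
    linear_combination h12
  rw [show ordMer τ (algebraMap HolH MerH a / algebraMap HolH MerH b) = (p : ℤ) - q from
    ordMer_div ha0 hb0 τ, neg_sub, zpow_sub₀ hl, zpow_natCast, zpow_natCast]
  rw [inv_pow, inv_pow] at h3
  field_simp at h3 ⊢
  linear_combination -h3

end Fermat.Agent.JacTorsion

namespace Fermat.Agent.ModFun.Uniformisation

open Fermat.Agent.JacTorsion

variable {N : ℕ} [NeZero N] {Γ : Subgroup SL(2, ℤ)} [Fact (CongruenceSubgroup.Gamma N ≤ Γ)]
  {F : Type} [Field F] [Algebra ℂ F] (U : Uniformisation N Γ F)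

theorem toField_ne_zero {a : invHol Γ} (ha : a ≠ 0) : U.toField a ≠ 0 :=
  (map_ne_zero_iff _ U.toField_injective).mpr ha

theorem e_toField (a : invHol Γ) :
    U.e (U.toField a) = algebraMap HolH MerH (invToHolH a) := by
  rw [U.emb_toField, toMerH_apply]
  exact congrArg _ (Subtype.ext (funext fun τ => tr_one (N := N) a τ))

theorem actMer_e {g : SL(2, ℤ)} (hg : g ∈ Γ) (x : F) : actMer g (U.e x) = U.e x := by
  rw [U.emb_smul, MulAction.Quotient.smul_coe, smul_eq_mul, mul_one]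
  have : ((g⁻¹ : SL(2, ℤ)) : SL(2, ℤ) ⧸ Γ) = ((1 : SL(2, ℤ)) : SL(2, ℤ) ⧸ Γ) := by
    rw [QuotientGroup.eq]; simpa using hg
  rw [this]

variable [Γ.FiniteIndex] [FF.IsFunctionField ℂ F]

/-- A function whose divisor is divisible by `m` has an `m`-th root on `ℍ`. -/
theorem exists_root {m : ℕ} [NeZero m] {x : F} (hx0 : x ≠ 0)
    (hx : ∀ P : Place ℂ F, (m : ℤ) ∣ P.ord x) :
    ∃ (H : HolH) (b C : invHol Γ), H ≠ 0 ∧ b ≠ 0 ∧ H ^ m = invToHolH C ∧
      U.toField C = x * U.toField b ^ m ∧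
      (algebraMap HolH MerH H / U.e (U.toField b)) ^ m = U.e x := by
  obtain ⟨k, hk⟩ : ∃ k, m = k + 1 := ⟨m - 1, by have := NeZero.ne m; omega⟩
  obtain ⟨a, b, hb, hab⟩ := U.exists_div x
  have hbF : U.toField b ≠ 0 := U.toField_ne_zero hb
  have hb' : U.e (U.toField b) ≠ 0 := (map_ne_zero _).mpr hbF
  have hC : U.toField (a * b ^ k) = x * U.toField b ^ m := by
    rw [map_mul, map_pow, hk, pow_succ', ← mul_assoc, hab, div_mul_cancel₀ _ hbF]
  have heC : algebraMap HolH MerH (invToHolH (a * b ^ k))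
      = U.e x * U.e (U.toField b) ^ m := by
    rw [← U.e_toField, hC, map_mul, map_pow]
  have hC0 : invToHolH (a * b ^ k) ≠ 0 := fun h => by
    rw [h, map_zero] at heC
    exact mul_ne_zero ((map_ne_zero _).mpr hx0) (pow_ne_zero _ hb') heC.symm
  obtain ⟨G, hGm⟩ := exists_holH_pow_eq (NeZero.ne m) hC0 fun τ => by
    obtain ⟨μ, -, hμ⟩ := U.exists_ordMer_eq τ
    rw [heC, ordMer_mul ((map_ne_zero _).mpr hx0) (pow_ne_zero _ hb'), ordMer_pow hb', hμ _ hx0]
    exact dvd_add (dvd_mul_of_dvd_right (hx _) μ) (dvd_mul_right _ _)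
  refine ⟨G, b, a * b ^ k, fun h => hC0 (by rw [← hGm, h, zero_pow (NeZero.ne m)]), hb, hGm, hC,
    ?_⟩
  rw [div_pow, ← map_pow (algebraMap HolH MerH), hGm, heC,
    mul_div_cancel_right₀ _ (pow_ne_zero _ hb')]

/-- An element fixing a point acts trivially on roots of functions in the field. -/
theorem const_eq_one_of_fixed {m : ℕ} [NeZero m] {τ : ℍ} {γ : SL(2, ℤ)} (hγ : γ ∈ Γ)
    (hτ : γ • τ = τ) {x : F} (hx0 : x ≠ 0) (hx : ∀ P : Place ℂ F, (m : ℤ) ∣ P.ord x)
    {h : MerH} (hh : h ^ m = U.e x) {c : ℂ} (hc : actMer γ h = algebraMap ℂ MerH c * h) :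
    c = 1 := by
  obtain ⟨μ, -, hμ⟩ := U.exists_ordMer_eq τ
  obtain ⟨t, ht0, ht⟩ := FF.exists_uniformizer (U.pointPlace τ)
  have h1 := const_eq_denom_zpow hτ ((map_ne_zero U.e).mpr ht0) (c := 1)
    (by rw [U.actMer_e hγ, map_one, one_mul])
  rw [hμ _ ht0, ht, mul_one] at h1
  have hh0 : h ≠ 0 := by
    rintro rfl
    rw [zero_pow (NeZero.ne m)] at hh
    exact (map_ne_zero U.e).mpr hx0 hh.symm
  obtain ⟨D, hD⟩ := hx (U.pointPlace τ)
  have hord : ordMer τ h = μ * D := by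
    have h2 := ordMer_pow hh0 τ m
    rw [hh, hμ _ hx0, hD] at h2
    refine mul_left_cancel₀ (Int.natCast_ne_zero.mpr (NeZero.ne m)) ?_
    linear_combination -h2
  rw [const_eq_denom_zpow hτ hh0 hc, hord, ← neg_mul, zpow_mul, ← h1, one_zpow]

end Fermat.Agent.ModFun.Uniformisation
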